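import Mathlib.Analysis.Fourier.AddCircle
import Mathlib.MeasureTheory.Integral.Prod

/-!
# Wiener's theorem on atoms

The mean of `‖μ̂ k‖²` over `|k| ≤ N` is the integral of a bounded kernel tending to the indicator
of the diagonal, so it tends to `∑ μ {x} ²`.
-/

set_option autoImplicit false

noncomputable section

open MeasureTheory Finset Filter Topology AddCircle
open scoped ComplexConjugate ENNReal

namespace FA.WienerTheorems

/-- The mean kernel. -/
def meanKernel (N : ℕ) (p : UnitAddCircle × UnitAddCircle) : ℂ :=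
  ((2 * N + 1 : ℕ) : ℂ)⁻¹ * ∑ k ∈ Icc (-(N : ℤ)) N, fourier k p.1 * conj (fourier k p.2)

theorem continuous_meanKernel (N : ℕ) : Continuous (meanKernel N) := by
  unfold meanKernel
  fun_prop

theorem norm_meanKernel_le (N : ℕ) (p : UnitAddCircle × UnitAddCircle) :
    ‖meanKernel N p‖ ≤ 1 := by
  rw [meanKernel, norm_mul, norm_inv, Complex.norm_natCast]
  refine (mul_le_mul_of_nonneg_left (norm_sum_le_of_le _ (n := fun _ => 1) fun k _ => ?_)
    (by positivity)).trans_eq ?_
  · exact le_of_eq (b := (1 : ℝ)) (by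
      rw [norm_mul, RCLike.norm_conj, fourier_apply, Circle.norm_coe, fourier_apply,
        Circle.norm_coe, mul_one])
  · rw [sum_const, Int.card_Icc, nsmul_eq_mul, mul_one,
      show ((N : ℤ) + 1 - -(N : ℤ)).toNat = 2 * N + 1 by omega]
    exact inv_mul_cancel₀ (by positivity)

theorem sum_zpow_Icc_mul (q : ℂ) (hq : q ≠ 0) (N : ℕ) :
    (∑ k ∈ Icc (-(N : ℤ)) N, q ^ k) * (q - 1) = q ^ ((N : ℤ) + 1) - q ^ (-(N : ℤ)) := by
  induction N with
  | zero => simp
  | succ N ih =>
    have e : Icc (-((N + 1 : ℕ) : ℤ)) ((N + 1 : ℕ) : ℤ) =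
        insert (-((N + 1 : ℕ) : ℤ)) (insert ((N + 1 : ℕ) : ℤ) (Icc (-(N : ℤ)) N)) := by
      ext z
      simp only [mem_Icc, mem_insert]
      omega
    rw [e, sum_insert (by simp only [mem_insert, mem_Icc]; omega),
      sum_insert (by simp only [mem_Icc]; omega), add_mul, add_mul, ih]
    push_cast
    rw [zpow_add₀ hq ((N : ℤ) + 1) 1, neg_add, zpow_add₀ hq (-(N : ℤ)) (-1), zpow_one,
      zpow_neg_one, zpow_neg]
    field_simp
    ring

theorem tendsto_meanKernel (p : UnitAddCircle × UnitAddCircle) :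
    Tendsto (fun N => meanKernel N p) atTop (𝓝 (if p.1 = p.2 then 1 else 0)) := by
  set q : ℂ := (toCircle p.1 : ℂ) / (toCircle p.2 : ℂ) with hq
  have hk : ∀ k : ℤ, fourier k p.1 * conj (fourier k p.2) = q ^ k := fun k => by
    rw [fourier_apply, fourier_apply, toCircle_zsmul, toCircle_zsmul, ← Circle.coe_inv_eq_conj,
      Circle.coe_inv, Circle.coe_zpow, Circle.coe_zpow, hq, div_zpow, div_eq_mul_inv]
  simp only [meanKernel, hk]
  have hq0 : q ≠ 0 := div_ne_zero (Circle.coe_ne_zero _) (Circle.coe_ne_zero _)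
  have hqn : ‖q‖ = 1 := by rw [hq, norm_div, Circle.norm_coe, Circle.norm_coe, div_one]
  by_cases hp : p.1 = p.2
  · rw [if_pos hp]
    refine tendsto_const_nhds.congr fun N => ?_
    have hq1 : q = 1 := by rw [hq, hp, div_self (Circle.coe_ne_zero _)]
    simp only [hq1, one_zpow, sum_const, Int.card_Icc, nsmul_eq_mul, mul_one]
    rw [show ((N : ℤ) + 1 - -(N : ℤ)).toNat = 2 * N + 1 by omega,
      inv_mul_cancel₀ (Nat.cast_ne_zero.2 (Nat.succ_ne_zero _))]
  · rw [if_neg hp]
    have hq1 : q ≠ 1 := fun e => by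
      rw [hq, div_eq_one_iff_eq (Circle.coe_ne_zero _)] at e
      exact hp (injective_toCircle one_ne_zero (Circle.ext e))
    refine squeeze_zero_norm (a := fun N : ℕ => ((2 * N + 1 : ℕ) : ℝ)⁻¹ * (2 / ‖q - 1‖))
      (fun N => ?_) ?_
    · rw [norm_mul, norm_inv, Complex.norm_natCast]
      refine mul_le_mul_of_nonneg_left ?_ (by positivity)
      rw [le_div_iff₀ (norm_pos_iff.2 (sub_ne_zero.2 hq1)), ← norm_mul, sum_zpow_Icc_mul q hq0 N]
      refine (norm_sub_le _ _).trans (le_of_eq ?_)
      rw [norm_zpow, norm_zpow, hqn, one_zpow, one_zpow]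
      norm_num
    · rw [← zero_mul (2 / ‖q - 1‖)]
      refine Tendsto.mul_const _ (tendsto_inv_atTop_zero.comp
        (tendsto_natCast_atTop_atTop.comp (tendsto_atTop_mono (fun N => ?_) tendsto_id)))
      simp only [id]
      omega

variable (μ : Measure UnitAddCircle) [IsFiniteMeasure μ]

theorem lintegral_measure_singleton :
    ∫⁻ x, μ {x} ∂μ = ∑' x, μ {x} ^ 2 := by
  classical
  set A : Set UnitAddCircle := {x | 0 < μ {x}} with hA
  have hAc : A.Countable := Measure.countable_meas_pos_of_disjoint_iUnion₀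
    (fun x => (measurableSet_singleton x).nullMeasurableSet) fun x y hxy =>
      (Set.disjoint_singleton.2 hxy).aedisjoint
  have h0 : ∀ x ∉ A, μ {x} = 0 := fun x hx => nonpos_iff_eq_zero.1 (not_lt.1 hx)
  rw [← setLIntegral_eq_of_support_subset (s := A) (fun x hx => by
    by_contra h
    exact hx (h0 x h)), lintegral_countable _ hAc,
    ← tsum_subtype_eq_of_support_subset (s := A) (f := fun x => μ {x} ^ 2) (fun x hx => by
      by_contra h
      exact hx (by simp [h0 x h]))]
  exact tsum_congr fun x => (sq _).symm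

/-- **Wiener's theorem.** -/
theorem tendsto_mean_sq_fourier :
    Tendsto (fun N : ℕ => (∑ k ∈ Icc (-(N : ℤ)) N, ‖∫ x, fourier k x ∂μ‖ ^ 2) / (2 * N + 1))
      atTop (𝓝 (∑' x, μ.real {x} ^ 2)) := by
  have hD : MeasurableSet {p : UnitAddCircle × UnitAddCircle | p.1 = p.2} :=
    measurableSet_eq_fun measurable_fst measurable_snd
  have h := tendsto_integral_of_dominated_convergence (μ := μ.prod μ) (F := meanKernel)
    (f := fun p => if p.1 = p.2 then 1 else 0) (fun _ => 1)
    (fun N => (continuous_meanKernel N).measurable.aestronglyMeasurable) (integrable_const _)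
    (fun N => Eventually.of_forall (norm_meanKernel_le N)) (Eventually.of_forall tendsto_meanKernel)
  have hint : ∀ k : ℤ, ∫ p, fourier k p.1 * conj (fourier k p.2) ∂μ.prod μ =
      ((‖∫ x, fourier k x ∂μ‖ ^ 2 : ℝ) : ℂ) := fun k => by
    rw [integral_prod_mul (fun x => fourier k x) (fun y => conj (fourier k y)), integral_conj,
      Complex.mul_conj, Complex.normSq_eq_norm_sq]
  have hN : ∀ N : ℕ, ∫ p, meanKernel N p ∂μ.prod μ =
      (((∑ k ∈ Icc (-(N : ℤ)) N, ‖∫ x, fourier k x ∂μ‖ ^ 2) / (2 * N + 1) : ℝ) : ℂ) := fun N => by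
    simp only [meanKernel]
    rw [integral_const_mul, integral_finsetSum _ fun k _ =>
      (by fun_prop : Continuous fun p : UnitAddCircle × UnitAddCircle =>
        fourier k p.1 * conj (fourier k p.2)).integrable_of_hasCompactSupport
        (HasCompactSupport.of_compactSpace _), sum_congr rfl fun k _ => hint k]
    push_cast
    rw [div_eq_inv_mul]
  have hlim : ∫ p, (if p.1 = p.2 then (1 : ℂ) else 0) ∂μ.prod μ =
      ((∑' x, μ.real {x} ^ 2 : ℝ) : ℂ) := by
    have e : (fun p : UnitAddCircle × UnitAddCircle => if p.1 = p.2 then (1 : ℂ) else 0) =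
        Set.indicator {p | p.1 = p.2} fun _ => 1 := by
      funext p
      simp [Set.indicator_apply]
    rw [e, integral_indicator hD, setIntegral_const, Complex.real_smul, mul_one, measureReal_def,
      Measure.prod_apply hD]
    congr 1
    have e2 : ∀ x : UnitAddCircle, (Prod.mk x ⁻¹' {p | p.1 = p.2}) = {x} := fun x => by
      ext y
      simp [eq_comm]
    simp only [e2]
    rw [lintegral_measure_singleton μ,
      ENNReal.tsum_toReal_eq fun x => ENNReal.pow_ne_top (measure_ne_top μ _)]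
    simp [measureReal_def]
  simp only [hN] at h
  rw [hlim] at h
  have h2 := (Complex.continuous_re.tendsto _).comp h
  simp only [Function.comp_def, Complex.ofReal_re] at h2
  exact h2

theorem noAtoms_iff_tendsto_mean :
    (∀ x, μ {x} = 0) ↔ Tendsto
      (fun N : ℕ => (∑ k ∈ Icc (-(N : ℤ)) N, ‖∫ x, fourier k x ∂μ‖ ^ 2) / (2 * N + 1))
      atTop (𝓝 0) := by
  refine ⟨fun h => by simpa [measureReal_def, h] using tendsto_mean_sq_fourier μ, fun h x => ?_⟩
  by_contra hx
  have e := tendsto_nhds_unique (tendsto_mean_sq_fourier μ) h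
  have hs : Summable fun y => μ.real {y} ^ 2 := by
    have hne : ∑' y, μ {y} ^ 2 ≠ ∞ := by
      rw [← lintegral_measure_singleton μ]
      refine ne_top_of_le_ne_top (ENNReal.mul_ne_top (measure_ne_top μ Set.univ)
        (measure_ne_top μ Set.univ))
        ((lintegral_mono fun y => measure_mono (Set.subset_univ _)).trans
          (le_of_eq (by rw [lintegral_const])))
    simpa [measureReal_def, ENNReal.toReal_pow] using ENNReal.summable_toReal hne
  have hpos : 0 < μ.real {x} ^ 2 :=
    pow_pos (ENNReal.toReal_pos hx (measure_ne_top μ _)) 2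
  linarith [hs.le_tsum x fun y _ => sq_nonneg (μ.real {y})]

/-- A measure whose transform tends to zero has no atoms. -/
theorem noAtoms_of_tendsto_zero
    (h : Tendsto (fun k : ℤ => ∫ x, fourier k x ∂μ) cofinite (𝓝 0)) (x : UnitAddCircle) :
    μ {x} = 0 := by
  classical
  refine (noAtoms_iff_tendsto_mean μ).2 ?_ x
  rw [Metric.tendsto_atTop]
  intro ε hε
  have hev := h.eventually (Metric.ball_mem_nhds (0 : ℂ) (Real.sqrt_pos.2 (half_pos hε)))
  rw [eventually_cofinite] at hev
  set B := hev.toFinset with hB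
  set C := ∑ k ∈ B, ‖∫ x, fourier k x ∂μ‖ ^ 2 with hC
  obtain ⟨N₀, hN₀⟩ := exists_nat_gt (2 * C / ε)
  refine ⟨N₀, fun N hN => ?_⟩
  rw [Real.dist_eq, sub_zero, abs_of_nonneg (by positivity), div_lt_iff₀ (by positivity)]
  have hsplit : ∑ k ∈ Icc (-(N : ℤ)) N, ‖∫ x, fourier k x ∂μ‖ ^ 2 ≤
      C + (2 * N + 1) * (ε / 2) := by
    rw [← sum_filter_add_sum_filter_not (Icc (-(N : ℤ)) N) (· ∈ B)]
    refine add_le_add (sum_le_sum_of_subset_of_nonneg (fun k hk => (mem_filter.1 hk).2)
      fun k _ _ => sq_nonneg _) ((sum_le_card_nsmul _ _ (ε / 2) fun k hk => ?_).trans ?_)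
    · have hk' := (mem_filter.1 hk).2
      rw [hB, Set.Finite.mem_toFinset, Set.mem_ofPred_eq, not_not, dist_zero_right] at hk'
      rw [← Real.sq_sqrt (half_pos hε).le]
      exact pow_le_pow_left₀ (norm_nonneg _) hk'.le 2
    · rw [nsmul_eq_mul]
      refine mul_le_mul_of_nonneg_right ?_ (half_pos hε).le
      refine (Nat.cast_le.2 (card_filter_le _ _)).trans (le_of_eq ?_)
      rw [Int.card_Icc, show ((N : ℤ) + 1 - -(N : ℤ)).toNat = 2 * N + 1 by omega]
      push_cast
      ring
  rw [div_lt_iff₀ hε] at hN₀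
  have : (N₀ : ℝ) ≤ N := Nat.cast_le.2 hN
  nlinarith

end FA.WienerTheorems

end
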