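import Mathlib.Analysis.Fourier.AddCircle
import Mathlib.Analysis.Normed.Ring.InfiniteSum
import Mathlib.Analysis.PSeries

/-!
# Absolutely convergent Fourier series

They form an algebra, closed under series with summable norms; the norm of a continuously
differentiable function is bounded by the suprema of the function and of its derivative.
-/

set_option autoImplicit false

noncomputable section

open MeasureTheory Finset Filter Topology AddCircle
open scoped ComplexConjugate Real

namespace FA.WienerTheorems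

theorem norm_fourier_apply (m : ℤ) (x : UnitAddCircle) : ‖fourier m x‖ = 1 := by
  rw [fourier_apply, Circle.norm_coe]

theorem norm_fourierCoeff_le (g : C(UnitAddCircle, ℂ)) (m : ℤ) :
    ‖fourierCoeff g m‖ ≤ ‖g‖ := by
  rw [fourierCoeff]
  refine (norm_integral_le_of_norm_le_const (C := ‖g‖) (Eventually.of_forall fun x => ?_)).trans
    (le_of_eq (by rw [probReal_univ, mul_one]))
  rw [norm_smul, norm_fourier_apply, one_mul]
  exact g.norm_coe_le_norm x

/-- A Fourier coefficient as a functional. -/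
def coeffCLM (m : ℤ) : C(UnitAddCircle, ℂ) →L[ℂ] ℂ :=
  LinearMap.mkContinuous
    { toFun := fun g => fourierCoeff g m
      map_add' := fun f g => congrFun
        (fourierCoeff.add (f.continuous.integrable_of_hasCompactSupport
          (HasCompactSupport.of_compactSpace _))
        (g.continuous.integrable_of_hasCompactSupport (HasCompactSupport.of_compactSpace _))) m
      map_smul' := fun a f => fourierCoeff.const_smul f a m }
    1 fun g => by
      rw [one_mul]
      exact norm_fourierCoeff_le g m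

/-- `∑ ‖f̂ m‖ ≤ b`. -/
def WienerBound (f : C(UnitAddCircle, ℂ)) (b : ℝ) : Prop :=
  ∀ s : Finset ℤ, ∑ m ∈ s, ‖fourierCoeff f m‖ ≤ b

theorem WienerBound.summable {f : C(UnitAddCircle, ℂ)} {b : ℝ} (h : WienerBound f b) :
    Summable fun m => ‖fourierCoeff f m‖ :=
  summable_of_sum_le (fun _ => norm_nonneg _) h

theorem wienerBound_tsum {f : C(UnitAddCircle, ℂ)}
    (hf : Summable fun m => ‖fourierCoeff f m‖) :
    WienerBound f (∑' m, ‖fourierCoeff f m‖) := fun _ =>
  hf.sum_le_tsum _ fun _ _ => norm_nonneg _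

theorem WienerBound.nonneg {f : C(UnitAddCircle, ℂ)} {b : ℝ} (h : WienerBound f b) : 0 ≤ b := by
  simpa using h ∅

theorem WienerBound.smul {f : C(UnitAddCircle, ℂ)} {b : ℝ} (h : WienerBound f b) (a : ℂ) :
    WienerBound (a • f) (‖a‖ * b) := fun s => by
  have e : ∀ m, fourierCoeff (a • f : C(UnitAddCircle, ℂ)) m = a * fourierCoeff f m := fun m =>
    map_smul (coeffCLM m) a f
  simp only [e, norm_mul, ← mul_sum]
  exact mul_le_mul_of_nonneg_left (h s) (norm_nonneg a)

/-- The norm dominates the supremum. -/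
theorem WienerBound.norm_le {f : C(UnitAddCircle, ℂ)} {b : ℝ} (h : WienerBound f b) : ‖f‖ ≤ b := by
  have hs : Summable (fourierCoeff f) := h.summable.of_norm
  refine (ContinuousMap.norm_le _ h.nonneg).2 fun x => ?_
  have hx := has_pointwise_sum_fourier_series_of_summable hs x
  rw [← hx.tsum_eq]
  have hn : (fun i => ‖fourierCoeff f i • fourier i x‖) = fun i => ‖fourierCoeff f i‖ := by
    funext i
    rw [norm_smul, norm_fourier_apply, mul_one]
  refine (norm_tsum_le_tsum_norm (by rw [hn]; exact h.summable)).trans ?_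
  rw [hn]
  exact Real.tsum_le_of_sum_le (fun _ => norm_nonneg _) h

/-- **Series.** -/
theorem WienerBound.of_hasSum {ι : Type*} {u : ι → C(UnitAddCircle, ℂ)} {b : ι → ℝ}
    {f : C(UnitAddCircle, ℂ)} (hf : HasSum u f) (hu : ∀ i, WienerBound (u i) (b i))
    (hb : Summable b) : WienerBound f (∑' i, b i) := fun s => by
  have hcoef : ∀ m, HasSum (fun i => fourierCoeff (u i) m) (fourierCoeff f m) := fun m =>
    (coeffCLM m).hasSum hf
  have hnorm : ∀ m, Summable fun i => ‖fourierCoeff (u i) m‖ := fun m =>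
    hb.of_nonneg_of_le (fun i => norm_nonneg _) fun i => by simpa using hu i {m}
  calc ∑ m ∈ s, ‖fourierCoeff f m‖ ≤ ∑ m ∈ s, ∑' i, ‖fourierCoeff (u i) m‖ :=
        sum_le_sum fun m _ => by
          rw [← (hcoef m).tsum_eq]
          exact norm_tsum_le_tsum_norm (hnorm m)
    _ = ∑' i, ∑ m ∈ s, ‖fourierCoeff (u i) m‖ :=
        (Summable.tsum_finsetSum fun m _ => hnorm m).symm
    _ ≤ ∑' i, b i := (summable_sum fun m _ => hnorm m).tsum_le_tsum (fun i => hu i s) hb

theorem fourierCoeff_mul_fourier (f : C(UnitAddCircle, ℂ)) (j m : ℤ) :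
    fourierCoeff (f * fourier j : C(UnitAddCircle, ℂ)) m = fourierCoeff f (m - j) := by
  simp only [fourierCoeff, ContinuousMap.mul_apply, smul_eq_mul]
  refine integral_congr_ae (Eventually.of_forall fun x => ?_)
  change fourier (-m) x * (f x * fourier j x) = fourier (-(m - j)) x * f x
  rw [show -(m - j) = -m + j by ring, fourier_add]
  ring

theorem WienerBound.mul_fourier {f : C(UnitAddCircle, ℂ)} {b : ℝ} (h : WienerBound f b) (j : ℤ) :
    WienerBound (f * fourier j) b := fun s => by
  simp only [fourierCoeff_mul_fourier]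
  have := h (s.map (Equiv.subRight j).toEmbedding)
  rwa [sum_map] at this

/-- **The algebra.** -/
theorem WienerBound.mul {f g : C(UnitAddCircle, ℂ)} {a b : ℝ} (hf : WienerBound f a)
    (hg : WienerBound g b) : WienerBound (f * g) (a * b) := by
  have hs := hasSum_fourier_series_of_summable hg.summable.of_norm
  have h1 : HasSum (fun j => fourierCoeff g j • (f * fourier j)) (f * g) := by
    simpa only [mul_smul_comm] using hs.mul_left f
  have h2 := WienerBound.of_hasSum h1 (fun j => (hf.mul_fourier j).smul (fourierCoeff g j))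
    (hg.summable.mul_right a)
  intro s
  refine (h2 s).trans ?_
  rw [tsum_mul_right, mul_comm a]
  exact mul_le_mul_of_nonneg_right (Real.tsum_le_of_sum_le (fun _ => norm_nonneg _) hg) hf.nonneg

theorem wienerBound_one : WienerBound 1 1 := fun s => by
  have e : ∀ m, fourierCoeff (1 : C(UnitAddCircle, ℂ)) m = if m = 0 then 1 else 0 := fun m => by
    have := congrFun (fourierCoeff_fourier (T := (1 : ℝ)) 0) m
    simp only [Pi.single_apply] at this
    rw [← this]
    congr 1
    funext x
    simp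
  simp only [e, apply_ite norm, norm_one, norm_zero, sum_ite_eq']
  split_ifs <;> norm_num

theorem WienerBound.pow {f : C(UnitAddCircle, ℂ)} {a : ℝ} (hf : WienerBound f a) :
    ∀ k : ℕ, WienerBound (f ^ k) (a ^ k)
  | 0 => by simpa using wienerBound_one
  | k + 1 => by simpa only [pow_succ] using (WienerBound.pow hf k).mul hf

theorem fourierCoeffOn_zero_one (g : C(UnitAddCircle, ℂ)) (m : ℤ) :
    fourierCoeffOn zero_lt_one (fun y : ℝ => g (y : UnitAddCircle)) m = fourierCoeff g m := by
  rw [fourierCoeffOn_eq_integral, fourierCoeff_eq_intervalIntegral _ _ 0]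
  simp

/-- The constant of the `C¹` bound. -/
def derivConst : ℝ := 1 + ∑' m : ℤ, 1 / (m : ℝ) ^ 2

/-- **The `C¹` bound.** -/
theorem wienerBound_of_hasDerivAt (g g' : C(UnitAddCircle, ℂ))
    (hd : ∀ x : ℝ, HasDerivAt (fun y : ℝ => g (y : UnitAddCircle)) (g' (x : UnitAddCircle)) x) :
    WienerBound g (‖g‖ + derivConst * ‖g'‖) := by
  classical
  have hrel : ∀ m : ℤ, m ≠ 0 → ‖fourierCoeff g m‖ ≤ ‖fourierCoeff g' m‖ / |(m : ℝ)| := fun m hm =>
    by
    have h := fourierCoeffOn_of_hasDerivAt zero_lt_one hm (fun x _ => hd x)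
      ((g'.continuous.comp (AddCircle.continuous_mk' 1)).intervalIntegrable 0 1)
    have hper : g ((1 : ℝ) : UnitAddCircle) = g ((0 : ℝ) : UnitAddCircle) := by
      rw [AddCircle.coe_period, QuotientAddGroup.mk_zero]
    rw [fourierCoeffOn_zero_one, fourierCoeffOn_zero_one, hper, sub_self, mul_zero, zero_sub,
      Complex.ofReal_one, Complex.ofReal_zero, sub_zero, one_mul] at h
    rw [h, norm_mul, norm_neg, norm_div, norm_one, one_div_mul_eq_div]
    refine div_le_div_of_nonneg_left (norm_nonneg _) (abs_pos.2 (Int.cast_ne_zero.2 hm)) ?_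
    simp only [norm_mul, norm_neg, Complex.norm_I, Complex.norm_real, Complex.norm_intCast,
      RCLike.norm_ofNat, Real.norm_of_nonneg Real.pi_pos.le]
    nlinarith [Real.two_le_pi, abs_nonneg (m : ℝ)]
  intro s
  have hM := norm_nonneg g'
  have hC : 1 ≤ derivConst := le_add_of_nonneg_right (tsum_nonneg fun m => by positivity)
  have hpars : ∑ m ∈ s, ‖fourierCoeff g' m‖ ^ 2 ≤ ‖g'‖ ^ 2 := by
    have h := hasSum_sq_fourierCoeff (ContinuousMap.toLp (E := ℂ) 2 haarAddCircle ℂ g')
    simp only [fourierCoeff_toLp] at h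
    refine (sum_le_hasSum s (fun _ _ => sq_nonneg _) h).trans ?_
    have e : (fun t => ‖ContinuousMap.toLp (E := ℂ) 2 haarAddCircle ℂ g' t‖ ^ 2)
        =ᵐ[(haarAddCircle : Measure UnitAddCircle)] fun t => ‖g' t‖ ^ 2 := by
      filter_upwards [ContinuousMap.coeFn_toLp (p := 2) (𝕜 := ℂ) haarAddCircle g'] with t ht
      rw [ht]
    rw [integral_congr_ae e]
    refine (integral_mono_of_nonneg (Eventually.of_forall fun _ => sq_nonneg _) (integrable_const _)
      (Eventually.of_forall fun t =>
        pow_le_pow_left₀ (norm_nonneg _) (g'.norm_coe_le_norm t) 2)).trans (le_of_eq (by simp))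
  have hpt : ∀ m ∈ s, ‖fourierCoeff g m‖ * ‖g'‖ ≤ (if m = 0 then ‖g‖ * ‖g'‖ else 0) +
      (‖fourierCoeff g' m‖ ^ 2 + ‖g'‖ ^ 2 * (1 / (m : ℝ) ^ 2)) / 2 := fun m _ => by
    rcases eq_or_ne m 0 with rfl | hm
    · rw [if_pos rfl]
      exact le_add_of_le_of_nonneg (mul_le_mul_of_nonneg_right (norm_fourierCoeff_le g 0) hM)
        (by positivity)
    · rw [if_neg hm, zero_add]
      refine (mul_le_mul_of_nonneg_right (hrel m hm) hM).trans ?_
      rw [← sq_abs (m : ℝ)]
      have hp : 0 < |(m : ℝ)| := abs_pos.2 (Int.cast_ne_zero.2 hm)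
      rw [← sub_nonneg, show (‖fourierCoeff g' m‖ ^ 2 + ‖g'‖ ^ 2 * (1 / |(m : ℝ)| ^ 2)) / 2 -
        ‖fourierCoeff g' m‖ / |(m : ℝ)| * ‖g'‖ =
          (‖fourierCoeff g' m‖ - ‖g'‖ / |(m : ℝ)|) ^ 2 / 2 by field_simp; ring]
      positivity
  rcases hM.eq_or_lt with h0 | h0
  · -- constant
    refine (sum_le_sum (g := fun m => if m = 0 then ‖g‖ else 0) fun m _ => ?_).trans ?_
    · rcases eq_or_ne m 0 with rfl | hm
      · rw [if_pos rfl]; exact norm_fourierCoeff_le g 0
      · rw [if_neg hm]
        refine (hrel m hm).trans (le_of_eq ?_)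
        have := norm_fourierCoeff_le g' m
        rw [← h0] at this
        rw [le_antisymm this (norm_nonneg _), zero_div]
    · rw [sum_ite_eq', ← h0, mul_zero, add_zero]
      split_ifs <;> simp
  have hsum : ∑ m ∈ s, (1 : ℝ) / (m : ℝ) ^ 2 ≤ derivConst - 1 := by
    rw [derivConst, add_sub_cancel_left]
    exact (Real.summable_one_div_int_pow.2 one_lt_two).sum_le_tsum _ fun m _ => by positivity
  have h := sum_le_sum hpt
  rw [← sum_mul, sum_add_distrib, ← sum_div, sum_add_distrib, ← mul_sum, sum_ite_eq'] at h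
  refine le_of_mul_le_mul_right (h.trans ?_) h0
  have h1 : (if (0 : ℤ) ∈ s then ‖g‖ * ‖g'‖ else 0) ≤ ‖g‖ * ‖g'‖ := by
    split_ifs <;> [exact le_rfl; positivity]
  nlinarith [mul_le_mul_of_nonneg_left hsum (sq_nonneg ‖g'‖)]

end FA.WienerTheorems

end
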