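import Fermat.Agent.WienerTheorems.Algebra
import Mathlib.Analysis.Calculus.Deriv.Inv
import Mathlib.Analysis.Calculus.Deriv.Pow

/-!
# Wiener's theorem on reciprocals

Newman's proof: with a trigonometric polynomial `P` near `f` in norm one has
`1 / f = ∑ (P - f) ^ k / P ^ (k + 1)`, and the `C¹` bound makes the series converge in norm.
-/

set_option autoImplicit false

noncomputable section

open MeasureTheory Finset Filter Topology AddCircle
open scoped ComplexConjugate Real

namespace FA.WienerTheorems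

/-- **Wiener's theorem.** -/
theorem summable_fourierCoeff_inv (f : C(UnitAddCircle, ℂ))
    (hf : Summable fun m => ‖fourierCoeff f m‖) (h0 : ∀ x, f x ≠ 0) (F : C(UnitAddCircle, ℂ))
    (hF : ∀ x, F x = (f x)⁻¹) : Summable fun m => ‖fourierCoeff F m‖ := by
  classical
  obtain ⟨x₀, -, hx₀⟩ := isCompact_univ.exists_isMinOn Set.univ_nonempty
    (continuous_norm.comp f.continuous).continuousOn
  set δ := ‖f x₀‖ with hδ
  have hδ0 : 0 < δ := norm_pos_iff.2 (h0 x₀)
  have hmin : ∀ x, δ ≤ ‖f x‖ := fun x => hx₀ (Set.mem_univ x)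
  have hser := hasSum_fourier_series_of_summable hf.of_norm
  obtain ⟨s, hs⟩ : ∃ s : Finset ℤ, ∑' m : { m // m ∉ s }, ‖fourierCoeff f m‖ < δ / 3 :=
    ((tendsto_tsum_compl_atTop_zero fun m => ‖fourierCoeff f m‖).eventually_lt_const
      (by positivity)).exists
  set P : C(UnitAddCircle, ℂ) := ∑ i ∈ s, fourierCoeff f i • fourier i with hP
  set P' : C(UnitAddCircle, ℂ) := ∑ i ∈ s, (fourierCoeff f i * (2 * π * Complex.I * i)) • fourier i
    with hP'
  have hh : WienerBound (P - f) (δ / 3) := fun t => by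
    have hc : ∀ m, ‖fourierCoeff (P - f : C(UnitAddCircle, ℂ)) m‖ =
        if m ∈ s then 0 else ‖fourierCoeff f m‖ := fun m => by
      have e : coeffCLM m P = ∑ i ∈ s, coeffCLM m (fourierCoeff f i • fourier i) := by
        rw [hP, map_sum]
      have e2 : fourierCoeff (P - f : C(UnitAddCircle, ℂ)) m = coeffCLM m P - coeffCLM m f :=
        map_sub (coeffCLM m) P f
      rw [e2, e]
      have e3 : ∀ i, coeffCLM m (fourierCoeff f i • fourier i) =
          if m = i then fourierCoeff f i else 0 := fun i => by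
        rw [map_smul]
        change fourierCoeff f i • fourierCoeff (fourier i : C(UnitAddCircle, ℂ)) m = _
        rw [fourierCoeff_fourier, Pi.single_apply, smul_eq_mul, mul_ite, mul_one, mul_zero]
      simp only [e3, sum_ite_eq]
      change ‖(if m ∈ s then fourierCoeff f m else 0) - fourierCoeff f m‖ = _
      split_ifs <;> simp
    simp only [hc]
    rw [sum_ite, sum_const_zero, zero_add]
    refine le_trans ?_ hs.le
    rw [← sum_subtype_eq_sum_filter]
    exact ((hf.subtype (· ∉ s)).sum_le_tsum _ fun _ _ => norm_nonneg _)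
  have hPf : ∀ x, ‖P x - f x‖ ≤ δ / 3 := fun x =>
    (ContinuousMap.norm_coe_le_norm (P - f) x).trans hh.norm_le
  have hPlow : ∀ x, 2 * δ / 3 ≤ ‖P x‖ := fun x => by
    linarith [hmin x, hPf x, norm_sub_norm_le (f x) (P x), norm_sub_rev (f x) (P x)]
  have hP0 : ∀ x, P x ≠ 0 := fun x e => by
    have := hPlow x
    rw [e, norm_zero] at this
    linarith
  set Q : C(UnitAddCircle, ℂ) := ⟨fun x => (P x)⁻¹, P.continuous.inv₀ hP0⟩ with hQ
  set r := 3 / (2 * δ) with hr
  have hr0 : 0 < r := by positivity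
  have hQr : ‖Q‖ ≤ r := (ContinuousMap.norm_le _ hr0.le).2 fun x => by
    change ‖(P x)⁻¹‖ ≤ r
    rw [norm_inv, hr, ← one_div_div, one_div]
    exact inv_anti₀ (by positivity) (hPlow x)
  have hPd : ∀ x : ℝ,
      HasDerivAt (fun y : ℝ => P (y : UnitAddCircle)) (P' (x : UnitAddCircle)) x := by
    intro x
    have h := HasDerivAt.fun_sum (u := s) fun i _ =>
      (hasDerivAt_fourier (1 : ℝ) i x).const_mul (fourierCoeff f i)
    simp only [Complex.ofReal_one, div_one] at h
    simp only [hP, hP', ContinuousMap.coe_sum, Finset.sum_apply, ContinuousMap.smul_apply,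
      smul_eq_mul, mul_assoc (fourierCoeff f _)]
    exact h
  have hQk : ∀ k : ℕ, WienerBound (Q ^ (k + 1))
      (r ^ (k + 1) + derivConst * ((k + 1) * r ^ (k + 2) * ‖P'‖)) := fun k => by
    have hd := wienerBound_of_hasDerivAt (Q ^ (k + 1))
      ((-((k + 1 : ℕ) : ℂ)) • (Q ^ (k + 2) * P')) fun x => by
        simp only [ContinuousMap.pow_apply, hQ, ContinuousMap.coe_mk, ContinuousMap.smul_apply,
          ContinuousMap.mul_apply, smul_eq_mul]
        refine (((hasDerivAt_inv (hP0 _)).comp x (hPd x)).fun_pow (k + 1)).congr_deriv ?_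
        simp only [Function.comp_apply]
        rw [Nat.add_sub_cancel, pow_add _ k 2, inv_pow (P _) 2]
        push_cast
        ring
    intro t
    refine (hd t).trans (add_le_add ?_ (mul_le_mul_of_nonneg_left ?_ ?_))
    · exact (norm_pow_le _ _).trans (pow_le_pow_left₀ (norm_nonneg _) hQr _)
    · rw [norm_smul, norm_neg, Complex.norm_natCast, mul_assoc ((k : ℝ) + 1)]
      push_cast
      refine mul_le_mul_of_nonneg_left ((norm_mul_le _ _).trans (mul_le_mul_of_nonneg_right
        ((norm_pow_le _ _).trans (pow_le_pow_left₀ (norm_nonneg _) hQr _)) (norm_nonneg _)))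
        (by positivity)
    · exact add_nonneg zero_le_one (tsum_nonneg fun m => by positivity)
  set u : ℕ → C(UnitAddCircle, ℂ) := fun k => (P - f) ^ k * Q ^ (k + 1) with hu
  set b : ℕ → ℝ := fun k =>
    (δ / 3) ^ k * (r ^ (k + 1) + derivConst * ((k + 1) * r ^ (k + 2) * ‖P'‖)) with hb
  have hub : ∀ k, WienerBound (u k) (b k) := fun k => (hh.pow k).mul (hQk k)
  have hq : ‖(1 / 2 : ℝ)‖ < 1 := by norm_num
  have hsum : Summable b := by
    have e : b = fun k : ℕ => (r + derivConst * r ^ 2 * ‖P'‖) * (1 / 2 : ℝ) ^ k +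
        derivConst * r ^ 2 * ‖P'‖ * ((k : ℝ) ^ 1 * (1 / 2 : ℝ) ^ k) := by
      funext k
      have e2 : δ / 3 * r = 1 / 2 := by rw [hr]; field_simp
      simp only [hb]
      rw [← e2, mul_pow, pow_add r k 2, pow_succ r k]
      ring
    rw [e]
    exact ((summable_geometric_of_norm_lt_one hq).mul_left _).add
      ((summable_pow_mul_geometric_of_norm_lt_one 1 hq).mul_left _)
  have hS : Summable u := .of_norm (hsum.of_nonneg_of_le (fun k => norm_nonneg _) fun k =>
    (hub k).norm_le)
  have hFS : (∑' k, u k) = F := ContinuousMap.ext fun x => by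
    have h1 : HasSum (fun k => u k x) ((∑' k, u k) x) :=
      (ContinuousMap.evalCLM ℂ x).hasSum hS.hasSum
    have hlt : ‖(P x - f x) * (P x)⁻¹‖ < 1 := by
      rw [norm_mul, norm_inv]
      rw [mul_inv_lt_iff₀ (by linarith [hPlow x]), one_mul]
      linarith [hPf x, hPlow x]
    have h2 := (hasSum_geometric_of_norm_lt_one hlt).mul_left (P x)⁻¹
    have e : (fun k => u k x) = fun k => (P x)⁻¹ * ((P x - f x) * (P x)⁻¹) ^ k := by
      funext k
      simp only [hu, hQ, ContinuousMap.mul_apply, ContinuousMap.pow_apply, ContinuousMap.sub_apply,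
        ContinuousMap.coe_mk]
      rw [mul_pow, pow_succ]
      ring
    rw [e] at h1
    rw [h1.unique h2, hF, ← mul_inv]
    congr 1
    have := hP0 x
    field_simp
    ring
  exact (WienerBound.of_hasSum (hFS ▸ hS.hasSum) hub hsum).summable

end FA.WienerTheorems

end
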